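/-
S55 / PROGRAM CFT — the integration chain (helper47).

This file is the single place where the packages are composed down to the LITERAL frozen
statement of S55.  It must compile at all times; it contains no proof of its own beyond wiring.

Layer 1 (this section): the literal S55 statement from the base interface of the abstract
layer, in two equivalent packagings:

* `Abs.CFTBase p S hpS` (helper235, `Abs/Top.lean`), and
* `Bricks p S hpS` : the same, with the obligations for one base module spelled out as the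
  four named fields of `BaseAt` (so that each owner sees the literal goal he has to produce):

  | field     | literal goal (context `D := Abs.ctxS p S hpS lam`, `M := Abs.M0 (ZMod p) Fix(K)`) | owner |
  |-----------|-------------------------------------------------------------------|---------------|
  | `disc`    | `IsDisc (globalLevel S) M`                                        | Abs (Reduce)  |
  | `a1epi`   | `PairEpi (D.P1 disc)`   : `H¹_c(M) × H²(M') → 𝔽_p`                 | BASE          |
  | `a2mono`  | `PairMono (D.P2 disc)`  : `H²_c(M) × H¹(M') → 𝔽_p`                 | BASE          |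
  | `a2epi`   | `PairEpi (D.P2 disc)`                                             | BASE          |

  for every finite `K/ℚ` unramified outside `S` and containing `μ_p`, with ONE functional `lam`
  on `Qc3 μ_p` for all `K`.  (Since the symmetric top step `Abs/SymmTop` of 17:27Z the local
  duality fields `locEpi` / `locMono` are no longer part of the top contract: local duality is
  an input of the base case only.)

`result_of_bricks` is stated with the binders of the frozen statement
(`Fermat/Templates/S55.lean.txt`) plus the hypothesis `B : Bricks p S hpS`; the final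
`Fermat/Agent/S55.lean` will be `Wire.result_of_bricks hp2 S hpS (bricks hp2 S hpS) M hsm hMur`.
-/
import Fermat.Agent.S55.Abs.Top
import Fermat.Agent.S55.Abs.Reduce

set_option autoImplicit false

open CategoryTheory Module groupCohomology ExtCitation
open groupCohomology

namespace Fermat.Agent.S55.Wire

open Fermat.Agent.S55.Abs

/-- The literal obligations of the base case for ONE field `K` and a fixed functional `lam`
(context `ctxS p S hpS lam`, module `M0 (ZMod p) K.fixingSubgroup = coind_{Fix K}^{G_ℚ} 𝔽_p`). -/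
structure BaseAt (p : ℕ) [Fact p.Prime] (S : Finset Nat.Primes) (hpS : pPrime p ∈ S)
    (lam : LamS p S) (K : IntermediateField ℚ (AlgebraicClosure ℚ)) : Prop where
  /-- the permutation module is discrete for the `S`-level family (Abs/Reduce) -/
  disc : IsDisc (globalLevel S) (M0 (ZMod p) K.fixingSubgroup)
  /-- BASE: `a₁` epi — every functional on `H²(G_S, M')` is `P1 x` for some `x ∈ H¹_c(M)` -/
  a1epi : PairEpi ((ctxS p S hpS lam).P1 disc)
  /-- BASE: `a₂` mono — `H²_c(M) → H¹(G_S, M')^*` is injective -/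
  a2mono : PairMono ((ctxS p S hpS lam).P2 disc)
  /-- BASE: `a₂` epi — every functional on `H¹(G_S, M')` is `P2 x` for some `x ∈ H²_c(M)` -/
  a2epi : PairEpi ((ctxS p S hpS lam).P2 disc)

/-- `BaseAt` is exactly package I together with `A2epi` for `M0(K)`. -/
theorem BaseAt.pkgI {p : ℕ} [Fact p.Prime] {S : Finset Nat.Primes} {hpS : pPrime p ∈ S}
    {lam : LamS p S} {K : IntermediateField ℚ (AlgebraicClosure ℚ)} (h : BaseAt p S hpS lam K) :
    (ctxS p S hpS lam).PkgI (M0 (ZMod p) K.fixingSubgroup) :=
  ⟨h.disc, h.a1epi, h.a2mono⟩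

theorem BaseAt.a2epi' {p : ℕ} [Fact p.Prime] {S : Finset Nat.Primes} {hpS : pPrime p ∈ S}
    {lam : LamS p S} {K : IntermediateField ℚ (AlgebraicClosure ℚ)} (h : BaseAt p S hpS lam K) :
    (ctxS p S hpS lam).A2epi (M0 (ZMod p) K.fixingSubgroup) :=
  ⟨h.disc, h.a2epi⟩

/-- Conversely, package I and `A2epi` for `M0(K)` give `BaseAt` (proof irrelevance of `disc`). -/
theorem BaseAt.of_pkg {p : ℕ} [Fact p.Prime] {S : Finset Nat.Primes} {hpS : pPrime p ∈ S}
    {lam : LamS p S} {K : IntermediateField ℚ (AlgebraicClosure ℚ)}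
    (hI : (ctxS p S hpS lam).PkgI (M0 (ZMod p) K.fixingSubgroup))
    (hII : (ctxS p S hpS lam).A2epi (M0 (ZMod p) K.fixingSubgroup)) : BaseAt p S hpS lam K :=
  ⟨hI.disc, hI.a1epi, hI.a2mono, hII.a2epi⟩

/-- **Layer-1 bricks**: one functional `lam` and the base case for every finite `K`, unramified
outside `S`, containing `μ_p`. -/
structure Bricks (p : ℕ) [Fact p.Prime] (S : Finset Nat.Primes) (hpS : pPrime p ∈ S) : Prop where
  exists_lam : ∃ lam : LamS p S, ∀ K : IntermediateField ℚ (AlgebraicClosure ℚ),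
    K.IsUnramifiedOutside S → Glue.cycloField p ≤ K → BaseAt p S hpS lam K

theorem cftBase_of_bricks {p : ℕ} [Fact p.Prime] {S : Finset Nat.Primes} {hpS : pPrime p ∈ S}
    (B : Bricks p S hpS) : CFTBase p S hpS := by
  obtain ⟨lam, h⟩ := B.exists_lam
  exact ⟨⟨lam, fun K hK hc => ⟨(h K hK hc).pkgI, (h K hK hc).a2epi'⟩⟩⟩

theorem bricks_of_cftBase {p : ℕ} [Fact p.Prime] {S : Finset Nat.Primes} {hpS : pPrime p ∈ S}
    (B : CFTBase p S hpS) : Bricks p S hpS := by
  obtain ⟨lam, h⟩ := B.exists_lam
  exact ⟨⟨lam, fun K hK hc => BaseAt.of_pkg (h K hK hc).1 (h K hK hc).2⟩⟩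

/-- `M0(K)` is discrete for the `S`-level family when `K` is unramified outside `S`. -/
theorem disc_M0 (p : ℕ) [Fact p.Prime] {S : Finset Nat.Primes}
    {K : IntermediateField ℚ (AlgebraicClosure ℚ)} (hK : K.IsUnramifiedOutside S) :
    IsDisc (globalLevel S) (M0 (ZMod p) K.fixingSubgroup) :=
  isDisc_coindTriv (globalLevel S) K.fixingSubgroup ⟨_, ⟨K, hK, rfl⟩, le_rfl⟩ (ZMod p)

/-- **The BASE obligations** for a functional `lam : LamS p S`: for every finite `K/ℚ`
unramified outside `S` and containing `μ_p`, with `M := M0(K) = coind_{Fix K}^{G_ℚ} 𝔽_p`,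
`D := ctxS p S hpS lam`:
`a₁` epi (`H¹_c(M) × H²(G_S, M') → 𝔽_p`), `a₂` mono and `a₂` epi (`H²_c(M) × H¹(G_S, M') → 𝔽_p`).
(The discreteness proof is `disc_M0 p hK`; any other proof gives the same statement by proof
irrelevance.) -/
def BaseGoal (p : ℕ) [Fact p.Prime] (S : Finset Nat.Primes) (hpS : pPrime p ∈ S)
    (lam : LamS p S) : Prop :=
  ∀ (K : IntermediateField ℚ (AlgebraicClosure ℚ)) (hK : K.IsUnramifiedOutside S),
    Glue.cycloField p ≤ K →
    PairEpi ((ctxS p S hpS lam).P1 (disc_M0 p hK)) ∧
    PairMono ((ctxS p S hpS lam).P2 (disc_M0 p hK)) ∧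
    PairEpi ((ctxS p S hpS lam).P2 (disc_M0 p hK))

theorem BaseGoal.baseAt {p : ℕ} [Fact p.Prime] {S : Finset Nat.Primes} {hpS : pPrime p ∈ S}
    {lam : LamS p S} (h : BaseGoal p S hpS lam)
    (K : IntermediateField ℚ (AlgebraicClosure ℚ)) (hK : K.IsUnramifiedOutside S)
    (hc : Glue.cycloField p ≤ K) : BaseAt p S hpS lam K :=
  ⟨disc_M0 p hK, (h K hK hc).1, (h K hK hc).2.1, (h K hK hc).2.2⟩

/-- One functional with the BASE obligations gives the layer-1 bricks. -/
theorem bricks_of_baseGoal {p : ℕ} [Fact p.Prime] {S : Finset Nat.Primes} {hpS : pPrime p ∈ S}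
    (lam : LamS p S) (h : BaseGoal p S hpS lam) : Bricks p S hpS :=
  ⟨⟨lam, fun K hK hc => h.baseAt K hK hc⟩⟩

/-- **S55 from the layer-1 bricks** — binders and conclusion are those of the frozen statement. -/
theorem result_of_bricks
    {p : ℕ} [Fact p.Prime] (hp2 : p ≠ 2) (S : Finset Nat.Primes) (hpS : pPrime p ∈ S)
    (B : Bricks p S hpS)
    (M : Rep (ZMod p) (AlgebraicClosure ℚ ≃ₐ[ℚ] AlgebraicClosure ℚ))
    [FiniteDimensional (ZMod p) M]
    (hsm : ∀ m : M, ∃ F : IntermediateField ℚ (AlgebraicClosure ℚ), FiniteDimensional ℚ F ∧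
      ∀ s ∈ F.fixingSubgroup, M.ρ s m = m)
    (hMur : ∀ q : Nat.Primes, q ∉ S → ∀ A : ValuationSubring (AlgebraicClosure ℚ),
      A.LiesOverPrime (q : ℕ) → ∀ g ∈ A.inertiaSubgroupIn ℚ, M.ρ g = 1) :
    ∃ B : sha₁ S (M.dualTwist (cycloChar p)) →ₗ[ZMod p] sha₂ S M →ₗ[ZMod p] ZMod p,
      (∀ y, (∀ x, B y x = 0) → y = 0) ∧ (∀ x, (∀ y, B y x = 0) → x = 0) :=
  S55_of_base hp2 S hpS (cftBase_of_bricks B) M hsm hMur

end Fermat.Agent.S55.Wire
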