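/-
S55 / PROGRAM CFT — the integration chain, layers 2 and 3 (helper47).

Layer 1 (`Wire/Chain.lean`): the literal S55 statement from `Bricks p S hpS`
(one `lam : LamS p S` with `BaseGoal p S hpS lam`: `a1epi`, `a2mono`, `a2epi` for every `M0(K)`).

Layer 2 (`Bricks2`), the split EVAL | BASE (captain's rulings #4, #5): an arithmetic input
`I : EvalQ.ArithInput p S` (helper36, `Base/EvalQ.lean`: local functionals `I.inv w` on the local
2-cochains at every prime `w`, killing level coboundaries and unramified cocycles outside `S`,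
with reciprocity at every finite level `T ⊇ S`) such that the BASE obligations hold for ITS
functional `I.lamS`.

Layer 3 (`Bricks3`), the split REC | LD + ASM: class-level functionals
`lamH w : H²(G_w, μ_p) → 𝔽_p` at every prime `w` with

* `IsRec.recip`   : reciprocity on classes at every finite level `T ⊇ S`   (REC-FINAL),
* `IsRec.ne_zero` : `lamH w ≠ 0` for every prime `w`                      (REC-FINAL; used by LD),

such that the BASE obligations hold for the functional of EVERY arithmetic input `I` extending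
`lamH` (`Extends I lamH`: `I.inv w z = lamH w [z]` on local level 2-cocycles).  The step
`Bricks3 → Bricks2` is helper36's `EvalQ.exists_arithInput_of_rec` (sorry-free).

So the two remaining deliverables, in literal form, are

  REC-FINAL :  `∃ lamH : LamH p, IsRec p S lamH`
  BASE      :  `∀ lamH, IsRec p S lamH → ∀ I : ArithInput p S, Extends I lamH → BaseGoal p S hpS I.lamS`

(`bricks3_of_rec_base`), and `result_of_bricks3` is the literal S55 statement from `Bricks3`.
-/
import Fermat.Agent.S55.Wire.Chain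
import Fermat.Agent.S55.Base.EvalUR

set_option autoImplicit false

open CategoryTheory Module groupCohomology ExtCitation
open groupCohomology

namespace Fermat.Agent.S55.Wire

open Fermat.Agent.S55.Abs Fermat.Agent.S55.Base.EvalQ

/-! ### Layer 2 -/

/-- **Layer-2 bricks**: an arithmetic input whose functional satisfies the BASE obligations. -/
structure Bricks2 (p : ℕ) [Fact p.Prime] (S : Finset Nat.Primes) (hpS : pPrime p ∈ S) : Prop where
  exists_input : ∃ I : ArithInput p S, BaseGoal p S hpS I.lamS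

theorem bricks_of_bricks2 {p : ℕ} [Fact p.Prime] {S : Finset Nat.Primes} {hpS : pPrime p ∈ S}
    (B : Bricks2 p S hpS) : Bricks p S hpS := by
  obtain ⟨I, hI⟩ := B.exists_input
  exact bricks_of_baseGoal I.lamS hI

/-! ### Layer 3 -/

/-- Class-level local functionals: one linear functional on the level cohomology
`H²(G_w, μ_p)` of the local Galois group at every prime `w`. -/
abbrev LamH (p : ℕ) [Fact p.Prime] : Type :=
  ∀ w : Nat.Primes, H2 (localLevel (primeLocalToGlobal w))
    (Rep.res (primeLocalToGlobal w) (muRep (cycloChar p))) →ₗ[ZMod p] ZMod p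

/-- **REC-FINAL output.** -/
structure IsRec (p : ℕ) [Fact p.Prime] (S : Finset Nat.Primes) (lamH : LamH p) : Prop where
  /-- reciprocity: for every finite `T ⊇ S` and every level-`T` 2-cocycle `z` of `G_ℚ` with
  values in `μ_p`, the sum over `w ∈ T` of the local functionals of `res_w z` vanishes -/
  recip : ∀ T : Finset Nat.Primes, S ⊆ T → ∀ (z : GQ × GQ → muRep (cycloChar p))
    (hz : z ∈ Z2 (globalLevel T) (muRep (cycloChar p))),
    ∑ w ∈ T, lamH w (Submodule.Quotient.mk ⟨_, res₂_mem_Z2 w hz⟩) = 0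
  /-- every local functional is nonzero (with `dim H²(G_w, μ_p) = 1` this is injectivity) -/
  ne_zero : ∀ w : Nat.Primes, lamH w ≠ 0

/-- The arithmetic input `I` extends the class-level functionals `lamH`. -/
def Extends {p : ℕ} [Fact p.Prime] {S : Finset Nat.Primes} (I : ArithInput p S)
    (lamH : LamH p) : Prop :=
  ∀ (w : Nat.Primes)
    (z : primeLocalGaloisGroup w × primeLocalGaloisGroup w → muRep (cycloChar p))
    (hz : z ∈ Z2 (localLevel (primeLocalToGlobal w))
      (Rep.res (primeLocalToGlobal w) (muRep (cycloChar p)))),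
    I.inv w z = lamH w (Submodule.Quotient.mk ⟨z, hz⟩)

/-- **Layer-3 bricks.** -/
structure Bricks3 (p : ℕ) [Fact p.Prime] (S : Finset Nat.Primes) (hpS : pPrime p ∈ S) : Prop where
  exists_lamH : ∃ lamH : LamH p, IsRec p S lamH ∧
    ∀ I : ArithInput p S, Extends I lamH → BaseGoal p S hpS I.lamS

theorem bricks2_of_bricks3 {p : ℕ} [Fact p.Prime] {S : Finset Nat.Primes} {hpS : pPrime p ∈ S}
    (B : Bricks3 p S hpS) : Bricks2 p S hpS := by
  obtain ⟨lamH, hrec, hbase⟩ := B.exists_lamH
  obtain ⟨I, hI⟩ := exists_arithInput_of_rec hpS lamH hrec.recip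
  exact ⟨⟨I, hbase I hI⟩⟩

/-- The two remaining deliverables give the layer-3 bricks. -/
theorem bricks3_of_rec_base {p : ℕ} [Fact p.Prime] {S : Finset Nat.Primes} {hpS : pPrime p ∈ S}
    (hrec : ∃ lamH : LamH p, IsRec p S lamH)
    (hbase : ∀ lamH : LamH p, IsRec p S lamH → ∀ I : ArithInput p S, Extends I lamH →
      BaseGoal p S hpS I.lamS) : Bricks3 p S hpS := by
  obtain ⟨lamH, h⟩ := hrec
  exact ⟨⟨lamH, h, hbase lamH h⟩⟩

/-- For `v ∈ S` the local invariant of the machine context of `I.lamS` is `lamH v`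
(helper36's `inv_eval`): the local pairings `PL1`, `PL2` of `ctxS p S hpS I.lamS` are
`lamH v ∘ cup`. -/
theorem Extends.inv_eq {p : ℕ} [Fact p.Prime] {S : Finset Nat.Primes} {I : ArithInput p S}
    {lamH : LamH p} (h : Extends I lamH) (hpS : pPrime p ∈ S) (v : ↥S) :
    (ctxS p S hpS I.lamS).inv v = lamH v.1 := by
  apply LinearMap.ext
  intro x
  induction x using Submodule.Quotient.induction_on with
  | H z =>
    obtain ⟨z, hz⟩ := z
    exact (I.inv_eval hpS v z hz).trans (h v.1 z hz)

/-- **S55 from the layer-2 bricks** — binders and conclusion are those of the frozen statement. -/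
theorem result_of_bricks2
    {p : ℕ} [Fact p.Prime] (hp2 : p ≠ 2) (S : Finset Nat.Primes) (hpS : pPrime p ∈ S)
    (B : Bricks2 p S hpS)
    (M : Rep (ZMod p) (AlgebraicClosure ℚ ≃ₐ[ℚ] AlgebraicClosure ℚ))
    [FiniteDimensional (ZMod p) M]
    (hsm : ∀ m : M, ∃ F : IntermediateField ℚ (AlgebraicClosure ℚ), FiniteDimensional ℚ F ∧
      ∀ s ∈ F.fixingSubgroup, M.ρ s m = m)
    (hMur : ∀ q : Nat.Primes, q ∉ S → ∀ A : ValuationSubring (AlgebraicClosure ℚ),
      A.LiesOverPrime (q : ℕ) → ∀ g ∈ A.inertiaSubgroupIn ℚ, M.ρ g = 1) :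
    ∃ B : sha₁ S (M.dualTwist (cycloChar p)) →ₗ[ZMod p] sha₂ S M →ₗ[ZMod p] ZMod p,
      (∀ y, (∀ x, B y x = 0) → y = 0) ∧ (∀ x, (∀ y, B y x = 0) → x = 0) :=
  result_of_bricks hp2 S hpS (bricks_of_bricks2 B) M hsm hMur

/-- **S55 from the layer-3 bricks** — binders and conclusion are those of the frozen statement. -/
theorem result_of_bricks3
    {p : ℕ} [Fact p.Prime] (hp2 : p ≠ 2) (S : Finset Nat.Primes) (hpS : pPrime p ∈ S)
    (B : Bricks3 p S hpS)
    (M : Rep (ZMod p) (AlgebraicClosure ℚ ≃ₐ[ℚ] AlgebraicClosure ℚ))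
    [FiniteDimensional (ZMod p) M]
    (hsm : ∀ m : M, ∃ F : IntermediateField ℚ (AlgebraicClosure ℚ), FiniteDimensional ℚ F ∧
      ∀ s ∈ F.fixingSubgroup, M.ρ s m = m)
    (hMur : ∀ q : Nat.Primes, q ∉ S → ∀ A : ValuationSubring (AlgebraicClosure ℚ),
      A.LiesOverPrime (q : ℕ) → ∀ g ∈ A.inertiaSubgroupIn ℚ, M.ρ g = 1) :
    ∃ B : sha₁ S (M.dualTwist (cycloChar p)) →ₗ[ZMod p] sha₂ S M →ₗ[ZMod p] ZMod p,
      (∀ y, (∀ x, B y x = 0) → y = 0) ∧ (∀ x, (∀ y, B y x = 0) → x = 0) :=
  result_of_bricks2 hp2 S hpS (bricks2_of_bricks3 B) M hsm hMur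

end Fermat.Agent.S55.Wire
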