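/-
S55 / PROGRAM CFT — the integration chain, layer 4 (helper47): BASE reduced to its GLOBAL part.

`BASE` (see `Wire/Layer2.lean`) asks, for a family `lamH` with `IsRec p S lamH`, an arithmetic
input `I` extending it and every admissible `K`, for `a1epi`, `a2mono`, `a2epi` of
`M := M0(K)` in `D := ctxS p S hpS I.lamS`.  Two of the ingredients are now closed on `main`
and are wired here:

* LD (local duality): `locPkgAt` — the local package at `v ∈ S` for EVERY finite discrete module
  of the local Galois group, for the local invariant `D.inv v` of the machine context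
  (helper297's `TDBase.locPkg_primeLocal`, helper65's (C) `LocalBr.finrank_H2mu`, and
  `D.inv v = lamH v ≠ 0`);
* `a₁` epi is formal (helper145's `Asm.a1epi_of_dual`): it follows from `a₂` mono of the dual
  `M' = M^*(χ)`, the local package of `M'` and the finiteness of `H¹(G_S, M)`.

* CNT (c0): `H¹(G_S, M)` is finite-dimensional (helper176's `CountAbs.cnt`), `fin_H1_M0`.

* `a₂` mono for the dual `M' = M^*(χ)` follows from `a₂` mono for `M` by the self-duality
  `M0(K) ≅ M0(K)^*(χ)` (helper135's `Glue.CoindDual.dualTwistIso`, `μ_p ⊂ K`) and retract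
  closure (`pairMono_Pc2_retract`): `a2mono_dual_of_a2mono`.

What remains is `GlobalAt` : `a₂` mono and `a₂` epi for `M = M0(K)` — the pairing
`P2 : H²_c(M) × H¹(G_S, M') → 𝔽_p` is perfect.
`baseGoal_of_globalAt` : `GlobalAt` for every admissible `K` ⟹ `BaseGoal` (`p` odd).
-/
import Fermat.Agent.S55.Wire.Layer2
import Fermat.Agent.S55.Base.AsmA1Epi
import Fermat.Agent.CFT.LocalBr.TDBase
import Fermat.Agent.CFT.LocalBr.Main
import Fermat.Agent.CFT.Global.CountAbs
import Fermat.Agent.S55.Glue.CoindDual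

set_option autoImplicit false

open CategoryTheory Module groupCohomology ExtCitation
open groupCohomology

namespace Fermat.Agent.S55.Wire

open Fermat.Agent.S55.Abs Fermat.Agent.S55.Base.EvalQ

/-- **LD at the places of `S`, in the machine context.**  For an arithmetic input `I` extending
nonzero class functionals `lamH`, the local package (local `H¹ × H¹` epi, local `H² × H⁰` mono,
with respect to the local invariant of `ctxS p S hpS I.lamS`) holds for every finite discrete
module of the local Galois group at `v ∈ S`. -/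
theorem locPkgAt {p : ℕ} [Fact p.Prime] {S : Finset Nat.Primes} (hpS : pPrime p ∈ S)
    {I : ArithInput p S} {lamH : LamH p} (hI : Extends I lamH) (hne : ∀ w, lamH w ≠ 0)
    (v : ↥S) (X : Rep.{0} (ZMod p) (primeLocalGaloisGroup v.1)) [Module.Finite (ZMod p) X]
    (hX : IsDisc (localLevel (primeLocalToGlobal v.1)) X) :
    (ctxS p S hpS I.lamS).LocPkgAt v X := by
  have : Fact ((v.1 : ℕ)).Prime := ⟨v.1.2⟩
  have hinv : (ctxS p S hpS I.lamS).inv v ≠ 0 := by
    rw [hI.inv_eq hpS v]
    exact hne v.1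
  exact CFT.LocalBr.TDBase.locPkg_primeLocal p v.1 ((ctxS p S hpS I.lamS).disc_μv v)
    ((ctxS p S hpS I.lamS).inv v) hinv
    (fun U hU => CFT.LocalBr.finrank_H2mu p hU) X hX

/-- **CNT (c0)**: `H¹(G_S, M0(K))` is finite-dimensional (`p` odd, `μ_p ⊂ K`, `K` unramified
outside `S ∋ p`). -/
theorem fin_H1_M0 {p : ℕ} [Fact p.Prime] (hp2 : p ≠ 2) {S : Finset Nat.Primes}
    (hpS : pPrime p ∈ S) {K : IntermediateField ℚ (AlgebraicClosure ℚ)}
    (hK : K.IsUnramifiedOutside S) (hc : Glue.cycloField p ≤ K) :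
    Module.Finite (ZMod p) (H1 (globalLevel S) (M0 (ZMod p) K.fixingSubgroup)) := by
  have : FiniteDimensional ℚ K := hK.1
  have : NumberField K := ⟨⟩
  obtain ⟨ρ, -, ⟨hfin, -⟩, -⟩ := CFT.Global.CountAbs.cnt S K hp2 hpS hK hc
  exact hfin

/-- **The global part of the base case** for one field `K` and a functional `lam`
(`M := M0(K)`, `M' := M^*(χ)`, `D := ctxS p S hpS lam`). -/
structure GlobalAt (p : ℕ) [Fact p.Prime] (S : Finset Nat.Primes) (hpS : pPrime p ∈ S)
    (lam : LamS p S) (K : IntermediateField ℚ (AlgebraicClosure ℚ))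
    (hK : K.IsUnramifiedOutside S) : Prop where
  /-- ASM: `a₂` mono for `M` -/
  a2mono : PairMono ((ctxS p S hpS lam).P2 (disc_M0 p hK))
  /-- ASM: `a₂` epi for `M` -/
  a2epi : PairEpi ((ctxS p S hpS lam).P2 (disc_M0 p hK))

/-- **`a₂` mono for the dual** `M' = M0(K)^*(χ)` from `a₂` mono for `M0(K)`: `M'` is isomorphic
to `M0(K)` (self-duality, `μ_p ⊂ K`), and `a₂` mono passes to retracts. -/
theorem a2mono_dual_of_a2mono {p : ℕ} [Fact p.Prime] {S : Finset Nat.Primes} (hpS : pPrime p ∈ S)
    (lam : LamS p S) {K : IntermediateField ℚ (AlgebraicClosure ℚ)}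
    (hK : K.IsUnramifiedOutside S) (hc : Glue.cycloField p ≤ K)
    (h : PairMono ((ctxS p S hpS lam).P2 (disc_M0 p hK))) :
    PairMono ((ctxS p S hpS lam).P2 ((ctxS p S hpS lam).disc_dual (disc_M0 p hK))) := by
  have hχ : ∀ u ∈ K.fixingSubgroup, cycloChar p u = 1 := fun u hu =>
    Glue.cycloChar_eq_one_of_mem_fixingSubgroup p
      (IntermediateField.fixingSubgroup_antitone hc hu)
  have hM := disc_M0 p hK
  have hM' := (ctxS p S hpS lam).disc_dual hM
  have : K.fixingSubgroup.FiniteIndex := (globalLevel S).finiteIndex _ ⟨K, hK, rfl⟩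
  have hri : ∀ m, (Glue.CoindDual.dualTwistIso (U := K.fixingSubgroup) (cycloChar p) hχ).hom.hom
      ((Glue.CoindDual.dualTwistIso (U := K.fixingSubgroup) (cycloChar p) hχ).inv.hom m) = m := by
    intro m
    simp
  exact pairMono_Pc2_retract (globalLevel S) (fun q : ↥S => primeLocalToGlobal q.1)
    (fun q : ↥S => localLevel (primeLocalToGlobal q.1)) (cycloChar p)
    (fun q : ↥S => isLevelMap_localLevel (primeLocalToGlobal q.1) S) (isDisc_mu p S hpS) lam
    (Glue.CoindDual.dualTwistIso (U := K.fixingSubgroup) (cycloChar p) hχ).inv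
    (Glue.CoindDual.dualTwistIso (U := K.fixingSubgroup) (cycloChar p) hχ).hom hri
    hM' ((ctxS p S hpS lam).disc_dual hM') hM hM' h

/-- **Layer 4.**  `GlobalAt` for every admissible `K` gives the BASE obligations. -/
theorem baseGoal_of_globalAt {p : ℕ} [Fact p.Prime] (hp2 : p ≠ 2) {S : Finset Nat.Primes}
    {hpS : pPrime p ∈ S} {lamH : LamH p} (hrec : IsRec p S lamH) {I : ArithInput p S} (hI : Extends I lamH)
    (h : ∀ (K : IntermediateField ℚ (AlgebraicClosure ℚ)) (hK : K.IsUnramifiedOutside S),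
      Glue.cycloField p ≤ K → GlobalAt p S hpS I.lamS K hK) :
    BaseGoal p S hpS I.lamS := by
  intro K hK hc
  have hg := h K hK hc
  refine ⟨?_, hg.a2mono, hg.a2epi⟩
  have : K.fixingSubgroup.FiniteIndex := (globalLevel S).finiteIndex _ ⟨K, hK, rfl⟩
  have : FiniteDimensional (ZMod p) (M0 (ZMod p) K.fixingSubgroup) :=
    finiteDimensional_coindTriv K.fixingSubgroup (ZMod p)
  have hM := disc_M0 p hK
  have hM' := (ctxS p S hpS I.lamS).disc_dual hM
  have hloc : ∀ v : ↥S, (ctxS p S hpS I.lamS).LocPkgAt v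
      (Rep.res (primeLocalToGlobal v.1) ((ctxS p S hpS I.lamS).dual (M0 (ZMod p) K.fixingSubgroup))) :=
    fun v => locPkgAt hpS hI hrec.ne_zero v _ ((ctxS p S hpS I.lamS).disc_res hM' v)
  exact Base.Asm.a1epi_of_dual (ctxS p S hpS I.lamS) hM (fin_H1_M0 hp2 hpS hK hc)
    (a2mono_dual_of_a2mono hpS I.lamS hK hc hg.a2mono)
    (fun v => (ctxS p S hpS I.lamS).locEpi_of_locPkg hM' v (hloc v))
    (fun v => (ctxS p S hpS I.lamS).locMono_of_locPkg hM' v (hloc v))

end Fermat.Agent.S55.Wire
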