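/-
S55 / PROGRAM CFT — the integration chain, final layer (helper47).

With REC-FINAL closed (`CFT.Rec.Final.exists_isRec`), local duality closed (`LDQInst`), the
counts `(c1)`, `(c3)` and the Euler characteristic closed (`ConeCnt.counts`), `(G4)` closed
(`G4Asm`) and the dual-side count `(c4')` reduced to `(c4)` by self-duality of `M0(K)`
(`Base/DualCountM0`), helper186's `ConeInputs.baseGoal` leaves exactly two arithmetic inputs
for the literal S55 statement:

  (CAP)  `CapClause p S`        : `Asm.CapGen S (M0 (ZMod p) K.fixingSubgroup)` for every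
                                  `K` unramified outside `S` containing `μ_p`;
  (c4)   `C4Clause p S hpS I`   : `ker loc² (M0(K))` is finite-dimensional of dimension `≤ ρ`
                                  whenever `[Cl_K : Cl_K^p ⊔ ⟨S_K⟩] = p ^ ρ`, in the context
                                  `ctxS p S hpS I.lamS` of an arithmetic input `I`.

`result_of_cap_c4` is the literal S55 statement from these two.
-/
import Fermat.Agent.S55.Base.ConeInputs
import Fermat.Agent.S55.Base.DualCountM0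
import Fermat.Agent.CFT.Rec.Final

set_option autoImplicit false

open CategoryTheory Module groupCohomology ExtCitation
open scoped NumberField

namespace Fermat.Agent.S55.Wire.Final

open Fermat.Agent.S55.Abs Fermat.Agent.S55.Base.EvalQ

/-- **(CAP)**: the capitulation/generation input for every base module `M0(K)`. -/
def CapClause (p : ℕ) [Fact p.Prime] (S : Finset Nat.Primes) : Prop :=
  ∀ K : IntermediateField ℚ (AlgebraicClosure ℚ), K.IsUnramifiedOutside S →
    Glue.cycloField p ≤ K → Base.Asm.CapGen S (M0 (ZMod p) K.fixingSubgroup)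

/-- **(c4)**: the upper bound `dim Ш²_S(M0(K)) ≤ ρ`, in the Poitou–Tate context of the
arithmetic input `I`. -/
def C4Clause (p : ℕ) [Fact p.Prime] (S : Finset Nat.Primes) (hpS : pPrime p ∈ S)
    (I : ArithInput p S) : Prop :=
  ∀ (K : IntermediateField ℚ (AlgebraicClosure ℚ)) [NumberField K],
    K.IsUnramifiedOutside S → Glue.cycloField p ≤ K → ∀ ρ : ℕ,
    (CFT.Global.SelmerCount.clS (𝓞 K) p (CFT.Global.CountV.SK S K)).index = p ^ ρ →
    FiniteDimensional (ZMod p)
        (LinearMap.ker (TopGlue.loc2 (ctxS p S hpS I.lamS) (M0 (ZMod p) K.fixingSubgroup))) ∧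
      Module.finrank (ZMod p)
        (LinearMap.ker (TopGlue.loc2 (ctxS p S hpS I.lamS) (M0 (ZMod p) K.fixingSubgroup)))
        ≤ ρ

/-- `(c4) ⟹ (c4')`: the same bound for the dual module `M0(K)'`, by self-duality. -/
theorem c4_dual {p : ℕ} [Fact p.Prime] {S : Finset Nat.Primes} {hpS : pPrime p ∈ S}
    {I : ArithInput p S} (h : C4Clause p S hpS I)
    (K : IntermediateField ℚ (AlgebraicClosure ℚ)) [NumberField K]
    (hK : K.IsUnramifiedOutside S) (hc : Glue.cycloField p ≤ K) (ρ : ℕ)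
    (hρ : (CFT.Global.SelmerCount.clS (𝓞 K) p (CFT.Global.CountV.SK S K)).index = p ^ ρ) :
    FiniteDimensional (ZMod p)
        (LinearMap.ker (TopGlue.loc2 (ctxS p S hpS I.lamS)
          ((ctxS p S hpS I.lamS).dual (M0 (ZMod p) K.fixingSubgroup)))) ∧
      Module.finrank (ZMod p)
        (LinearMap.ker (TopGlue.loc2 (ctxS p S hpS I.lamS)
          ((ctxS p S hpS I.lamS).dual (M0 (ZMod p) K.fixingSubgroup)))) ≤ ρ := by
  obtain ⟨hfin, hle⟩ := h K hK hc ρ hρ
  exact ⟨Base.DualCountM0.finite_ker_loc2_dual hpS I.lamS K hK hc,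
    Base.DualCountM0.finrank_ker_loc2_dual_le hpS I.lamS K hK hc hle⟩

/-- **BASE from (CAP) and (c4)** for an input extending a reciprocity family. -/
theorem baseGoal_of_cap_c4 {p : ℕ} [Fact p.Prime] (hp2 : p ≠ 2) {S : Finset Nat.Primes}
    (hpS : pPrime p ∈ S) {lamH : Wire.LamH p} (hrec : Wire.IsRec p S lamH)
    {I : ArithInput p S} (hI : Wire.Extends I lamH)
    (hCap : CapClause p S) (hc4 : C4Clause p S hpS I) :
    Wire.BaseGoal p S hpS I.lamS :=
  Base.ConeInputs.baseGoal I hpS hp2 hrec.ne_zero hI hCap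
    (fun K _ hK hc ρ hρ => hc4 K hK hc ρ hρ)
    (fun K _ hK hc ρ hρ => c4_dual hc4 K hK hc ρ hρ)

/-- **The layer-3 bricks from (CAP) and (c4)**; REC-FINAL is consumed here. -/
theorem bricks3_of_cap_c4 {p : ℕ} [Fact p.Prime] (hp2 : p ≠ 2) {S : Finset Nat.Primes}
    (hpS : pPrime p ∈ S) (hCap : CapClause p S)
    (hc4 : ∀ lamH : Wire.LamH p, Wire.IsRec p S lamH → ∀ I : ArithInput p S,
      Wire.Extends I lamH → C4Clause p S hpS I) :
    Wire.Bricks3 p S hpS :=
  Wire.bricks3_of_rec_base (CFT.Rec.Final.exists_isRec p hp2 S hpS)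
    (fun lamH hrec I hI => baseGoal_of_cap_c4 hp2 hpS hrec hI hCap (hc4 lamH hrec I hI))

/-- **The literal S55 statement from (CAP) and (c4).** -/
theorem result_of_cap_c4
    {p : ℕ} [Fact p.Prime] (hp2 : p ≠ 2) (S : Finset Nat.Primes) (hpS : pPrime p ∈ S)
    (hCap : CapClause p S)
    (hc4 : ∀ lamH : Wire.LamH p, Wire.IsRec p S lamH → ∀ I : ArithInput p S,
      Wire.Extends I lamH → C4Clause p S hpS I)
    (M : Rep (ZMod p) (AlgebraicClosure ℚ ≃ₐ[ℚ] AlgebraicClosure ℚ))
    [FiniteDimensional (ZMod p) M]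
    (hsm : ∀ m : M, ∃ F : IntermediateField ℚ (AlgebraicClosure ℚ), FiniteDimensional ℚ F ∧
      ∀ s ∈ F.fixingSubgroup, M.ρ s m = m)
    (hMur : ∀ q : Nat.Primes, q ∉ S → ∀ A : ValuationSubring (AlgebraicClosure ℚ),
      A.LiesOverPrime (q : ℕ) → ∀ g ∈ A.inertiaSubgroupIn ℚ, M.ρ g = 1) :
    ∃ B : sha₁ S (M.dualTwist (cycloChar p)) →ₗ[ZMod p] sha₂ S M →ₗ[ZMod p] ZMod p,
      (∀ y, (∀ x, B y x = 0) → y = 0) ∧ (∀ x, (∀ y, B y x = 0) → x = 0) :=
  Wire.result_of_bricks3 hp2 S hpS (bricks3_of_cap_c4 hp2 hpS hCap hc4) M hsm hMur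

end Fermat.Agent.S55.Wire.Final
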