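/-
S55 / PROGRAM CFT — integration chain, ALTERNATIVE layer 2 through `Trace/LamS` (helper47).

NOT the official route (that is `Wire/Layer2.lean`, through helper36's `EvalQ.ArithInput`;
captain's rulings #4/#5).  Kept compiling as a second entry: the same split REC/LAM | BASE, with
the functional built by helper277's `Trace.LamS.exists_lamS'`.

* `IsRecFamily p inv` : ONE family `inv q` (all primes `q`) of linear functionals on the local
  2-cochains with values in `μ_p`, killing the coboundaries of LEVEL-CONSTANT local 1-cochains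
  (`cob`) and satisfying reciprocity at every finite level `T ∋ p` (`recip`).
* `hUR` : "unramified 2-cocycles outside `S` are level-constant coboundaries", from helper216's
  `Arith.Unram.exists_isUnram₁_d₁₂_eq`.
* `IsTrace p S inv lam0 lam` : `lam0` has the `EvalCup.Star` property for `inv`, and
  `lam : LamS p S` is `lam0` on cone 3-cocycles.  `exists_isTrace` produces one for every
  `S ∋ p` from an `IsRecFamily`.
* `BricksTr p` : a rec family such that `BaseGoal` holds for EVERY trace of it.
-/
import Fermat.Agent.S55.Wire.Chain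
import Fermat.Agent.S55.Trace.LamS
import Fermat.Agent.S55.Arith.UnramLocal

set_option autoImplicit false

open CategoryTheory Module groupCohomology ExtCitation
open groupCohomology

namespace Fermat.Agent.S55.Wire

open Fermat.Agent.S55.Abs Fermat.Agent.S55.Trace.LamS

/-- The type of a family of local functionals: one linear functional on the local 2-cochains
with values in `μ_p` for every prime `q`. -/
abbrev InvFam (p : ℕ) [Fact p.Prime] : Type :=
  ∀ q : Nat.Primes,
    (primeLocalGaloisGroup q × primeLocalGaloisGroup q → muLoc p q) →ₗ[ZMod p] ZMod p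

/-- The family `inv` kills coboundaries of level-constant local 1-cochains and satisfies
reciprocity at every finite level containing `p`. -/
structure IsRecFamily (p : ℕ) [Fact p.Prime] (inv : InvFam p) : Prop where
  /-- LOC: `inv q` kills `d` of level-constant local 1-cochains -/
  cob : ∀ (q : Nat.Primes), ∀ f ∈ C1 (localLevel (primeLocalToGlobal q)) (muLoc p q),
    inv q ((d₁₂ (muLoc p q)).hom f) = 0
  /-- REC: reciprocity for level-`T` global 2-cocycles with values in `μ_p`, `T ∋ p` finite -/
  recip : ∀ T : Finset Nat.Primes, pPrime p ∈ T → ∀ z ∈ lev2 p T, (d₂₃ (mu p)).hom z = 0 →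
    ∑ q ∈ T, inv q (Base.EvalCup.res₂ (primeLocalToGlobal q) (mu p) z) = 0

/-- **(UR) for `μ_p`** (helper216's `exists_isUnram₁_d₁₂_eq`, in the vocabulary of
`Trace.LamS`): outside `S ∋ p`, an unramified local 2-cocycle with values in `μ_p` is the
coboundary of a level-constant local 1-cochain. -/
theorem hUR (p : ℕ) [Fact p.Prime] (S : Finset Nat.Primes) (hpS : pPrime p ∈ S) :
    ∀ q : Nat.Primes, q ∉ S → ∀ z ∈ ur2 p q, (d₂₃ (muLoc p q)).hom z = 0 →
      ∃ x ∈ C1 (localLevel (primeLocalToGlobal q)) (muLoc p q), (d₁₂ (muLoc p q)).hom x = z := by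
  intro q hq z hz hdz
  have hqp : (q : ℕ) ≠ p := by
    intro h
    apply hq
    have : q = pPrime p := Subtype.ext h
    rw [this]
    exact hpS
  have hpk : ((p : ℕ) : ZMod p) = 0 := ZMod.natCast_self p
  have hM : ∃ S₀ : Finset Nat.Primes, q ∉ S₀ ∧ ∃ F₀ : IntermediateField ℚ (AlgebraicClosure ℚ),
      F₀.IsUnramifiedOutside S₀ ∧ ∀ s ∈ F₀.fixingSubgroup, (mu p).ρ s = 1 := by
    obtain ⟨_, ⟨F, hF, rfl⟩, h⟩ := isDisc_mu p S hpS
    exact ⟨S, hq, F, hF, fun s hs => LinearMap.ext fun m => h s hs m⟩
  have hzu : Arith.Unram.IsUnram₂ q z := by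
    obtain ⟨T, hT, F, hF, h⟩ := hz
    exact ⟨T, hT, F, hF, h⟩
  obtain ⟨x, ⟨T, -, F, hF, hx⟩, hdx⟩ :=
    Arith.Unram.exists_isUnram₁_d₁₂_eq p q hqp hpk (mu p) hM z hdz hzu
  exact ⟨x, ⟨_, ⟨F, hF.1, rfl⟩, fun g s hs => hx g s hs⟩, hdx⟩

/-- `(lam0, lam)` is a trace functional for the family `inv` at `S`: `lam0` is defined on all
pairs (global 3-cochain, local 2-cochains at `S`), has the `EvalCup.Star` property for `inv`
(levels `lev2 p T`, unramified local cochains `ur2 p q`), and `lam` is `lam0` on the classes of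
cone 3-cocycles. -/
structure IsTrace (p : ℕ) [Fact p.Prime] (S : Finset Nat.Primes) (inv : InvFam p)
    (lam0 : ((GQ × GQ × GQ → mu p) ×
      (∀ v : ↥S, primeLocalGaloisGroup v × primeLocalGaloisGroup v → muLoc p v)) →ₗ[ZMod p] ZMod p)
    (lam : LamS p S) : Prop where
  /-- the (STAR) property of `LambdaStar` -/
  star : Base.EvalCup.Star (fun q : Nat.Primes => primeLocalToGlobal q) S lam0 inv (lev2 p) (ur2 p)
  /-- `lam` is induced by `lam0` -/
  descend : ∀ x : ↥(Cc3 (globalLevel S) (fun q : ↥S => primeLocalToGlobal q.1)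
      (fun q : ↥S => localLevel (primeLocalToGlobal q.1)) (mu p)),
    lam (Submodule.Quotient.mk x) = lam0 x.1
  /-- `lam0` on purely local classes is the sum of the local functionals -/
  local_eq : ∀ B : ∀ v : ↥S, primeLocalGaloisGroup v × primeLocalGaloisGroup v → muLoc p v,
    lam0 (0, B) = ∑ v : ↥S, inv v (B v)
  /-- `lam0` on cone coboundaries of level `S` -/
  bdry_eq : ∀ (e : GQ × GQ → mu p)
    (B : ∀ v : ↥S, primeLocalGaloisGroup v × primeLocalGaloisGroup v → muLoc p v),
    e ∈ lev2 p S → lam0 ((d₂₃ (mu p)).hom e, B)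
      = ∑ v : ↥S, inv v (B v - Base.EvalCup.res₂ (primeLocalToGlobal v) (mu p) e)

/-- **LAM**: every rec family has a trace functional at every `S ∋ p`
(helper277's `exists_lamS'` + `hUR`). -/
theorem exists_isTrace {p : ℕ} [Fact p.Prime] {inv : InvFam p} (hinv : IsRecFamily p inv)
    (S : Finset Nat.Primes) (hpS : pPrime p ∈ S) :
    ∃ lam0 lam, IsTrace p S inv lam0 lam := by
  obtain ⟨lam0, lam, h1, h2, h3, h4⟩ := exists_lamS' p S inv hinv.cob (hUR p S hpS)
    (fun T hT z hz hdz => hinv.recip T (hT hpS) z hz hdz)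
  exact ⟨lam0, lam, h1, h2, h3, h4⟩

/-- The local invariants of the machine context are the given ones (helper277's `invOf_eq`). -/
theorem IsTrace.inv_eq {p : ℕ} [Fact p.Prime] {S : Finset Nat.Primes} {inv : InvFam p}
    {lam0 : ((GQ × GQ × GQ → mu p) ×
      (∀ v : ↥S, primeLocalGaloisGroup v × primeLocalGaloisGroup v → muLoc p v)) →ₗ[ZMod p] ZMod p}
    {lam : LamS p S} (h : IsTrace p S inv lam0 lam) (hpS : pPrime p ∈ S) (v : ↥S)
    (z : primeLocalGaloisGroup v × primeLocalGaloisGroup v → muLoc p v)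
    (hz : z ∈ Z2 (localLevel (primeLocalToGlobal v)) (muLoc p v)) :
    (ctxS p S hpS lam).inv v (Submodule.Quotient.mk ⟨z, hz⟩) = inv v z :=
  invOf_eq p S inv lam0 lam h.descend h.local_eq v z hz

/-- **Alternative layer-2 bricks**: a rec family `inv` such that the BASE obligations hold for
every trace functional of `inv`, at every finite `S ∋ p`. -/
structure BricksTr (p : ℕ) [Fact p.Prime] : Prop where
  exists_inv : ∃ inv : InvFam p, IsRecFamily p inv ∧
    ∀ (S : Finset Nat.Primes) (hpS : pPrime p ∈ S)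
      (lam0 : ((GQ × GQ × GQ → mu p) ×
        (∀ v : ↥S, primeLocalGaloisGroup v × primeLocalGaloisGroup v → muLoc p v))
          →ₗ[ZMod p] ZMod p)
      (lam : LamS p S), IsTrace p S inv lam0 lam → BaseGoal p S hpS lam

theorem bricks_of_bricksTr {p : ℕ} [Fact p.Prime] (B : BricksTr p) (S : Finset Nat.Primes)
    (hpS : pPrime p ∈ S) : Bricks p S hpS := by
  obtain ⟨inv, hinv, hbase⟩ := B.exists_inv
  obtain ⟨lam0, lam, htr⟩ := exists_isTrace hinv S hpS
  exact bricks_of_baseGoal lam (hbase S hpS lam0 lam htr)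

end Fermat.Agent.S55.Wire
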